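import Fermat.Agent.H36.SS2.NormBCAbs
import Fermat.Agent.H35.SS2.Interfaces
import Fermat.Agent.H77.ES1Deg.Descent

/-!
# P-SS2 row 988 (NORMBC): norms along the degeneracy maps commute with the extension of
constants

`normBaseChange : Fermat.Agent.H35.SS2.NormBaseChangeStatement`.
-/

set_option autoImplicit false
set_option linter.style.haveILetI false
set_option linter.unusedSectionVars false
set_option synthInstance.maxHeartbeats 400000
set_option maxHeartbeats 1600000

noncomputable section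

namespace Fermat.Agent.H36.SS2

open AlgebraicCurve ModularCurve HahnSeries IntermediateField
open Fermat.Agent.H93.KL Fermat.Agent.H11.SS2

section Coeff

variable {K Lf : Type*} [Field K] [Field Lf] [Algebra ℚ K] [Algebra ℚ Lf] (ι : K →+* Lf)

/-- `coeffMap` commutes with `q ↦ q^n`. -/
theorem nbc_coeffMap_qExpand {R S : Type*} [CommRing R] [CommRing S] (f : R →+* S) (n : ℕ)
    [NeZero n] (x : LaurentSeries R) :
    coeffMap f (qExpand R n x) = qExpand S n (coeffMap f x) := by
  ext k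
  by_cases hk : (n : ℤ) ∣ k
  · obtain ⟨m, rfl⟩ := hk
    rw [coeffMap_coeff, qExpand_coeff_mul, qExpand_coeff_mul, coeffMap_coeff]
  · rw [coeffMap_coeff, qExpand_coeff_of_not_dvd n _ hk, qExpand_coeff_of_not_dvd n _ hk,
      map_zero]

/-- **Linear disjointness, twisted form.** -/
theorem nbc_indep (F₀ G₀ : IntermediateField ℚ (LaurentSeries ℚ))
    (Φ : LaurentSeries K →+* LaurentSeries K) (Φb : LaurentSeries Lf →+* LaurentSeries Lf)
    (h2 : ∀ c ∈ laurentBaseChange K G₀, ∃ f ∈ laurentBaseChange K F₀, Φ f = c)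
    (h3 : ∀ g ∈ laurentBaseChange Lf F₀, Φb g ∈ laurentBaseChange Lf G₀)
    {n : ℕ} (v : Fin n → LaurentSeries K)
    (hv : ∀ f : Fin n → LaurentSeries K, (∀ i, f i ∈ laurentBaseChange K F₀) →
      ∑ i, Φ (f i) * v i = 0 → ∀ i, f i = 0)
    (g : Fin n → LaurentSeries Lf) (hg : ∀ i, g i ∈ laurentBaseChange Lf F₀)
    (hrel : ∑ i, Φb (g i) * coeffMap ι (v i) = 0) : ∀ i, g i = 0 := by
  have hli : LinearIndependent ↥(laurentBaseChange K G₀) v := by
    rw [Fintype.linearIndependent_iff]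
    intro c hc i
    choose f hf hfc using fun i => h2 (c i : LaurentSeries K) (c i).2
    have h0 : ∑ i, Φ (f i) * v i = 0 := by
      rw [← hc]
      exact Finset.sum_congr rfl fun i _ => by rw [hfc i]; rfl
    have := hv f hf h0 i
    apply Subtype.ext
    rw [← hfc i, this, map_zero]
    rfl
  have hli' := Fermat.Agent.H77.es1d_indep_map ι G₀ v hli
  rw [Fintype.linearIndependent_iff] at hli'
  intro i
  have h0 : ∑ i, (⟨Φb (g i), h3 _ (hg i)⟩ : ↥(laurentBaseChange Lf G₀)) • coeffMap ι (v i) = 0 :=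
    hrel
  have h1 := hli' (fun i => ⟨Φb (g i), h3 _ (hg i)⟩) h0 i
  have h4 : Φb (g i) = 0 := congrArg Subtype.val h1
  exact (map_eq_zero Φb).mp h4

end Coeff

section Gen

variable {K₁ : Type} [Field K₁] [Algebra ℚ K₁] (ι : K₁ →+* QBar)

/-- `F_{ℚ̄}` is generated, as a field, by the image of `F_{K₁}` and the constants. -/
theorem nbc_gen (F₀ : IntermediateField ℚ (LaurentSeries ℚ))
    (T : Subfield ↥(laurentBaseChange QBar F₀))
    (hT1 : ∀ e : ↥(laurentBaseChange K₁ F₀), klBc ι F₀ e ∈ T)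
    (hT2 : ∀ c : QBar, algebraMap QBar ↥(laurentBaseChange QBar F₀) c ∈ T) : T = ⊤ := by
  rw [eq_top_iff]
  intro y _
  have hy := y.2
  rw [mem_laurentBaseChange_iff] at hy
  have hle : Subfield.closure (Set.range (algebraMap QBar (LaurentSeries QBar)) ∪
      (⇑(coeffEmb QBar) '' (F₀ : Set (LaurentSeries ℚ)))) ≤
      T.map (laurentBaseChange QBar F₀).val.toRingHom := by
    rw [Subfield.closure_le]
    rintro x (⟨c, rfl⟩ | ⟨z, hz, rfl⟩)
    · exact ⟨_, hT2 c, rfl⟩
    · refine ⟨_, hT1 ⟨coeffEmb K₁ z, coeffEmb_mem_laurentBaseChange K₁ hz⟩, ?_⟩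
      exact Fermat.Agent.H77.es1d_coeffMap_coeffEmb ι z
  obtain ⟨t, ht, hty⟩ := hle hy
  have : t = y := Subtype.ext hty
  exact this ▸ ht

end Gen

section Main

variable {K₁ : Type} [Field K₁] [Algebra ℚ K₁] (ι : K₁ →+* QBar)

/-- **Norm base change, general twisted form.**  `φ`, `φb` are the restrictions of ring
endomorphisms `Φ`, `Φb` of the Laurent series fields which commute with the coefficient map. -/
theorem nbc_norm (F₀ F₁ G₀ : IntermediateField ℚ (LaurentSeries ℚ))
    (φ : ↥(laurentBaseChange K₁ F₀) →ₐ[K₁] ↥(laurentBaseChange K₁ F₁))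
    (φb : ↥(laurentBaseChange QBar F₀) →ₐ[QBar] ↥(laurentBaseChange QBar F₁))
    (Φ : LaurentSeries K₁ →+* LaurentSeries K₁)
    (Φb : LaurentSeries QBar →+* LaurentSeries QBar)
    (hφ : ∀ x, (φ x : LaurentSeries K₁) = Φ (x : LaurentSeries K₁))
    (hφb : ∀ x, (φb x : LaurentSeries QBar) = Φb (x : LaurentSeries QBar))
    (hΦ : ∀ x, coeffMap ι (Φ x) = Φb (coeffMap ι x))
    (h2 : ∀ c ∈ laurentBaseChange K₁ G₀, ∃ f ∈ laurentBaseChange K₁ F₀, Φ f = c)
    (h3 : ∀ g ∈ laurentBaseChange QBar F₀, Φb g ∈ laurentBaseChange QBar G₀)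
    (u : ↥(laurentBaseChange K₁ F₁)) :
    klBc ι F₀ (ss2NormAlong φ u) = ss2NormAlong φb (klBc ι F₁ u) := by
  letI algF : Algebra ↥(laurentBaseChange K₁ F₀) ↥(laurentBaseChange K₁ F₁) :=
    φ.toRingHom.toAlgebra
  letI algFb : Algebra ↥(laurentBaseChange QBar F₀) ↥(laurentBaseChange QBar F₁) :=
    φb.toRingHom.toAlgebra
  have halg : ∀ a : ↥(laurentBaseChange K₁ F₀),
      algebraMap ↥(laurentBaseChange K₁ F₀) ↥(laurentBaseChange K₁ F₁) a = φ a := fun _ => rfl
  have halgb : ∀ a : ↥(laurentBaseChange QBar F₀),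
      algebraMap ↥(laurentBaseChange QBar F₀) ↥(laurentBaseChange QBar F₁) a = φb a :=
    fun _ => rfl
  have hsmul : ∀ (a : ↥(laurentBaseChange K₁ F₀)) (e : ↥(laurentBaseChange K₁ F₁)),
      ((a • e : ↥(laurentBaseChange K₁ F₁)) : LaurentSeries K₁) =
        Φ (a : LaurentSeries K₁) * (e : LaurentSeries K₁) := by
    intro a e
    rw [Algebra.smul_def, halg, MulMemClass.coe_mul, hφ]
  have hsmulb : ∀ (a : ↥(laurentBaseChange QBar F₀)) (e : ↥(laurentBaseChange QBar F₁)),
      ((a • e : ↥(laurentBaseChange QBar F₁)) : LaurentSeries QBar) =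
        Φb (a : LaurentSeries QBar) * (e : LaurentSeries QBar) := by
    intro a e
    rw [Algebra.smul_def, halgb, MulMemClass.coe_mul, hφb]
  have hκ : ∀ f : ↥(laurentBaseChange K₁ F₀),
      klBc ι F₁ (algebraMap ↥(laurentBaseChange K₁ F₀) ↥(laurentBaseChange K₁ F₁) f) =
        algebraMap ↥(laurentBaseChange QBar F₀) ↥(laurentBaseChange QBar F₁) (klBc ι F₀ f) := by
    intro f
    apply Subtype.ext
    rw [halg, halgb, klBc_coe, hφ, hφb, klBc_coe, hΦ]
  have hLI : ∀ (n : ℕ) (v : Fin n → ↥(laurentBaseChange K₁ F₁)),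
      LinearIndependent ↥(laurentBaseChange K₁ F₀) v →
      LinearIndependent ↥(laurentBaseChange QBar F₀) (fun i => klBc ι F₁ (v i)) := by
    intro n v hv
    rw [Fintype.linearIndependent_iff] at hv ⊢
    intro g hg i
    have hv' : ∀ f : Fin n → LaurentSeries K₁, (∀ i, f i ∈ laurentBaseChange K₁ F₀) →
        ∑ i, Φ (f i) * ((v i : ↥(laurentBaseChange K₁ F₁)) : LaurentSeries K₁) = 0 →
        ∀ i, f i = 0 := by
      intro f hf hrel j
      have h0 : ∑ i, (⟨f i, hf i⟩ : ↥(laurentBaseChange K₁ F₀)) • v i = 0 := by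
        apply Subtype.ext
        rw [AddSubmonoidClass.coe_finsetSum, ZeroMemClass.coe_zero, ← hrel]
        exact Finset.sum_congr rfl fun i _ => hsmul _ _
      exact congrArg Subtype.val (hv _ h0 j)
    have hrel : ∑ i, Φb ((g i : ↥(laurentBaseChange QBar F₀)) : LaurentSeries QBar) *
        coeffMap ι ((v i : ↥(laurentBaseChange K₁ F₁)) : LaurentSeries K₁) = 0 := by
      have h1 := congrArg Subtype.val hg
      rw [AddSubmonoidClass.coe_finsetSum, ZeroMemClass.coe_zero] at h1
      rw [← h1]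
      refine Finset.sum_congr rfl fun i _ => ?_
      rw [hsmulb, klBc_coe]
    exact Subtype.ext (nbc_indep ι F₀ G₀ Φ Φb h2 h3 _ hv' _ (fun i => (g i).2) hrel i)
  have hgen : Subfield.closure (Set.range (klBc ι F₁) ∪
      Set.range (algebraMap ↥(laurentBaseChange QBar F₀) ↥(laurentBaseChange QBar F₁))) = ⊤ := by
    apply nbc_gen ι F₁
    · intro e
      exact Subfield.subset_closure (Or.inl ⟨e, rfl⟩)
    · intro c
      refine Subfield.subset_closure (Or.inr ⟨algebraMap QBar _ c, ?_⟩)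
      rw [halgb]
      exact φb.commutes c
  exact (normBC_of_LI_gen (klBc ι F₀) (klBc ι F₁) hκ hLI hgen u).symm

end Main

section Final

variable {K : Type*} [Field K] [Algebra ℚ K]

/-- `q ↦ q^n` maps `K · F₀` into `K · F₁` as soon as it maps `F₀` into `F₁`. -/
theorem nbc_qExpand_mem {F₀ F₁ : IntermediateField ℚ (LaurentSeries ℚ)} (n : ℕ) [NeZero n]
    (hF : ∀ y ∈ F₀, qExpand ℚ n y ∈ F₁) {x : LaurentSeries K}
    (hx : x ∈ laurentBaseChange K F₀) : qExpand K n x ∈ laurentBaseChange K F₁ := by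
  rw [mem_laurentBaseChange_iff] at hx
  induction hx using Subfield.closure_induction with
  | mem y hy =>
      rcases hy with ⟨a, rfl⟩ | ⟨z, hz, rfl⟩
      · rw [algebraMap_laurentSeries_eq_single, qExpand_single, mul_zero,
          ← algebraMap_laurentSeries_eq_single]
        exact (laurentBaseChange K F₁).algebraMap_mem _
      · rw [coeffEmb, ← nbc_coeffMap_qExpand]
        exact coeffEmb_mem_laurentBaseChange K (hF z hz)
  | one => simp
  | add x y _ _ hx hy => simpa using add_mem hx hy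
  | neg x _ hx => simpa using neg_mem hx
  | inv x _ hx => simpa using inv_mem hx
  | mul x y _ _ hx hy => simpa using mul_mem hx hy

/-- Every element of `K · qExpand(F₀)` is `qExpand` of an element of `K · F₀`. -/
theorem nbc_qExpand_surj (F₀ : IntermediateField ℚ (LaurentSeries ℚ)) (n : ℕ) [NeZero n]
    {c : LaurentSeries K} (hc : c ∈ laurentBaseChange K (F₀.map (qExpandₐ n))) :
    ∃ f ∈ laurentBaseChange K F₀, qExpand K n f = c := by
  rw [mem_laurentBaseChange_iff] at hc
  induction hc using Subfield.closure_induction with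
  | mem y hy =>
      rcases hy with ⟨a, rfl⟩ | ⟨z, hz, rfl⟩
      · refine ⟨algebraMap K (LaurentSeries K) a, (laurentBaseChange K F₀).algebraMap_mem _, ?_⟩
        rw [algebraMap_laurentSeries_eq_single, qExpand_single, mul_zero]
      · obtain ⟨y, hy, rfl⟩ := hz
        refine ⟨coeffEmb K y, coeffEmb_mem_laurentBaseChange K hy, ?_⟩
        exact (nbc_coeffMap_qExpand (algebraMap ℚ K) n y).symm
  | one => exact ⟨1, one_mem _, map_one _⟩
  | add x y _ _ hx hy =>
      obtain ⟨f, hf, rfl⟩ := hx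
      obtain ⟨g, hg, rfl⟩ := hy
      exact ⟨f + g, add_mem hf hg, map_add _ _ _⟩
  | neg x _ hx =>
      obtain ⟨f, hf, rfl⟩ := hx
      exact ⟨-f, neg_mem hf, map_neg _ _⟩
  | inv x _ hx =>
      obtain ⟨f, hf, rfl⟩ := hx
      exact ⟨f⁻¹, inv_mem hf, map_inv₀ _ _⟩
  | mul x y _ _ hx hy =>
      obtain ⟨f, hf, rfl⟩ := hx
      obtain ⟨g, hg, rfl⟩ := hy
      exact ⟨f * g, mul_mem hf hg, map_mul _ _ _⟩

/-- **(N)** norms along `α`, `β` commute with the extension of the field of constants. -/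
theorem normBaseChange : Fermat.Agent.H35.SS2.NormBaseChangeStatement := by
  intro L ℓ _ _ K₁ _ _ ι u
  constructor
  · refine nbc_norm ι (modularFunctionFieldFull L) (modularFunctionFieldFull (L * ℓ))
      (modularFunctionFieldFull L) (heckeAlphaBar K₁ L ℓ) (heckeAlphaBar QBar L ℓ)
      (RingHom.id _) (RingHom.id _) ?_ ?_ ?_ ?_ ?_ u
    · intro x
      rw [coe_heckeAlphaBar, RingHom.id_apply]
    · intro x
      rw [coe_heckeAlphaBar, RingHom.id_apply]
    · intro x
      rfl
    · intro c hc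
      exact ⟨c, hc, rfl⟩
    · intro g hg
      exact hg
  · refine nbc_norm ι (modularFunctionFieldFull L) (modularFunctionFieldFull (L * ℓ))
      ((modularFunctionFieldFull L).map (qExpandₐ ℓ)) (heckeBetaBar K₁ L ℓ)
      (heckeBetaBar QBar L ℓ) (qExpand K₁ ℓ) (qExpand QBar ℓ) ?_ ?_ ?_ ?_ ?_ u
    · intro x
      rw [coe_heckeBetaBar]
    · intro x
      rw [coe_heckeBetaBar]
    · intro x
      exact nbc_coeffMap_qExpand ι ℓ x
    · intro c hc
      exact nbc_qExpand_surj (modularFunctionFieldFull L) ℓ hc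
    · intro g hg
      exact nbc_qExpand_mem (F₁ := (modularFunctionFieldFull L).map (qExpandₐ ℓ)) ℓ
        (fun y hy => (show qExpand ℚ ℓ y ∈ IntermediateField.map (qExpandₐ ℓ)
          (modularFunctionFieldFull L) from ⟨y, hy, rfl⟩)) hg

end Final

end Fermat.Agent.H36.SS2

end
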