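import Mathlib

/-!
# P-SS2 row 988 (NORMBC), abstract part: base change of norms

`normBC_of_LI_gen`: for a commutative square of fields

```
F  ----> E
|κF      |κE
Fb ----> Eb
```

such that `κE` preserves linear independence (over `F`, resp. `Fb`) and `Eb` is generated as a
field by the image of `κE` and the image of `Fb`, the norms of `E / F` and `Eb / Fb` correspond
(also when the extensions are infinite: both norms are `1`).  Mathlib only.
-/

set_option autoImplicit false
set_option linter.style.haveILetI false

noncomputable section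

namespace Fermat.Agent.H36.SS2

open Module

section Abs

variable {F E Fb Eb : Type*} [Field F] [Field E] [Field Fb] [Field Eb]
  [Algebra F E] [Algebra Fb Eb]
variable (κF : F →+* Fb) (κE : E →+* Eb)

/-- Norms agree when a basis is mapped to a basis. -/
theorem normBC_of_basis (hκ : ∀ f : F, κE (algebraMap F E f) = algebraMap Fb Eb (κF f))
    {ι : Type*} [Fintype ι] [DecidableEq ι] (b : Basis ι F E) (b' : Basis ι Fb Eb)
    (hb : ∀ i, b' i = κE (b i)) (u : E) :
    Algebra.norm Fb (κE u) = κF (Algebra.norm F u) := by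
  rw [Algebra.norm_eq_matrix_det b', Algebra.norm_eq_matrix_det b, RingHom.map_det]
  congr 1
  ext i j
  rw [Algebra.leftMulMatrix_eq_repr_mul, RingHom.mapMatrix_apply, Matrix.map_apply,
    Algebra.leftMulMatrix_eq_repr_mul]
  have key : κE u * b' j = ∑ k, (κF (b.repr (u * b j) k)) • b' k := by
    rw [hb, ← map_mul]
    conv_lhs => rw [← b.sum_repr (u * b j)]
    rw [map_sum]
    refine Finset.sum_congr rfl fun k _ => ?_
    rw [hb, Algebra.smul_def, map_mul, Algebra.smul_def, hκ]
  rw [key, b'.repr_sum_self]

/-- The image of `E` lies in the `Fb`-span of the image of a basis. -/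
theorem normBC_map_mem_span (hκ : ∀ f : F, κE (algebraMap F E f) = algebraMap Fb Eb (κF f))
    {ι : Type*} [Fintype ι] (b : Basis ι F E) (e : E) :
    κE e ∈ Submodule.span Fb (Set.range fun i => κE (b i)) := by
  rw [← b.sum_repr e, map_sum]
  refine Submodule.sum_mem _ fun i _ => ?_
  rw [Algebra.smul_def, map_mul, hκ, ← Algebra.smul_def]
  exact Submodule.smul_mem _ _ (Submodule.subset_span ⟨i, rfl⟩)

/-- Spanning: if `Eb` is generated as a field by the images of `E` and `Fb`, the image of a
finite basis of `E / F` spans `Eb / Fb`. -/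
theorem normBC_span_eq_top (hκ : ∀ f : F, κE (algebraMap F E f) = algebraMap Fb Eb (κF f))
    (hgen : Subfield.closure (Set.range κE ∪ Set.range (algebraMap Fb Eb)) = ⊤)
    {ι : Type*} [Fintype ι] (b : Basis ι F E) :
    ⊤ ≤ Submodule.span Fb (Set.range fun i => κE (b i)) := by
  classical
  set S : Submodule Fb Eb := Submodule.span Fb (Set.range fun i => κE (b i)) with hS
  have h1 : ∀ e : E, κE e ∈ S := normBC_map_mem_span κF κE hκ b
  have hone : (1 : Eb) ∈ S := by
    have := h1 1
    rwa [map_one] at this
  have hmul : ∀ x y : Eb, x ∈ S → y ∈ S → x * y ∈ S := by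
    intro x y hx hy
    have hle : S * S ≤ S := by
      rw [hS, Submodule.span_mul_span, Submodule.span_le]
      rintro _ ⟨_, ⟨i, rfl⟩, _, ⟨j, rfl⟩, rfl⟩
      have := h1 (b i * b j)
      rwa [map_mul] at this
    exact hle (Submodule.mul_mem_mul hx hy)
  let A : Subalgebra Fb Eb := Submodule.toSubalgebra S hone hmul
  have hAS : ∀ x, x ∈ A ↔ x ∈ S := fun x => Iff.rfl
  have hfinS : Module.Finite Fb S := by
    rw [hS]
    exact Module.Finite.span_of_finite Fb (Set.finite_range _)
  haveI hfinA : Module.Finite Fb A := hfinS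
  have hinv : ∀ x ∈ A, x⁻¹ ∈ A := by
    intro x hx
    have hint : IsIntegral Fb (⟨x, hx⟩ : A) := IsIntegral.of_finite Fb _
    have h2 : IsIntegral Fb x := hint.map A.val
    exact A.inv_mem_of_algebraic (x := ⟨x, hx⟩) h2.isAlgebraic
  let T : IntermediateField Fb Eb := Subalgebra.toIntermediateField A hinv
  have hT : Subfield.closure (Set.range κE ∪ Set.range (algebraMap Fb Eb)) ≤ T.toSubfield := by
    rw [Subfield.closure_le]
    rintro x (⟨e, rfl⟩ | ⟨f, rfl⟩)
    · exact h1 e
    · exact T.algebraMap_mem f
  intro x _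
  have hx : x ∈ T.toSubfield := hT (hgen ▸ Subfield.mem_top x)
  exact hx

/-- **Base change of norms** from linear disjointness and generation. -/
theorem normBC_of_LI_gen (hκ : ∀ f : F, κE (algebraMap F E f) = algebraMap Fb Eb (κF f))
    (hLI : ∀ (n : ℕ) (v : Fin n → E), LinearIndependent F v →
      LinearIndependent Fb (fun i => κE (v i)))
    (hgen : Subfield.closure (Set.range κE ∪ Set.range (algebraMap Fb Eb)) = ⊤)
    (u : E) : Algebra.norm Fb (κE u) = κF (Algebra.norm F u) := by
  classical
  by_cases hfin : Module.Finite F E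
  · let b : Basis (Fin (finrank F E)) F E := Module.finBasis F E
    let b' : Basis (Fin (finrank F E)) Fb Eb :=
      Basis.mk (hLI _ _ b.linearIndependent) (normBC_span_eq_top κF κE hκ hgen b)
    exact normBC_of_basis κF κE hκ b b' (fun i => Basis.mk_apply _ _ i) u
  · rw [Algebra.norm_eq_one_of_not_module_finite hfin, map_one]
    apply Algebra.norm_eq_one_of_not_module_finite
    intro hfinb
    have hrank : ¬ Module.rank F E < Cardinal.aleph0 :=
      fun h => hfin (Module.rank_lt_aleph0_iff.mp h)
    have hle : ((finrank Fb Eb + 1 : ℕ) : Cardinal) ≤ Module.rank F E :=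
      le_of_lt (lt_of_lt_of_le (Cardinal.natCast_lt_aleph0) (not_lt.mp hrank))
    obtain ⟨v, hv⟩ := le_rank_iff.mp hle
    have h1 := (hLI _ v hv).fintype_card_le_finrank
    rw [Fintype.card_fin] at h1
    omega

end Abs

end Fermat.Agent.H36.SS2

end
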